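import Mathlib
import Fermat.Agent.H84.MWDiv.Interfaces

/-!
# P-MW / MW-A1-LOGUNIQ (row 718, helper4)

`logDerivUnique : Fermat.Agent.H84.MWDiv.LogDerivUniqueStatement`: two holomorphic solutions
`F₁`, `F₂ ≠ 0` of `F' ψ = φ F` on `ℍ` (`ψ ≠ 0`) are proportional.
-/

set_option autoImplicit false

noncomputable section

namespace Fermat.Agent.H4.MWDiv

open UpperHalfPlane Filter Topology
open scoped Manifold

theorem comp_ofComplex_coe (F : ℍ → ℂ) (z : ℍ) : (F ∘ ofComplex) (z : ℂ) = F z := by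
  rw [Function.comp_apply, ofComplex_apply]

/-- **[A1-LOGUNIQ]** -/
theorem logDerivUnique : Fermat.Agent.H84.MWDiv.LogDerivUniqueStatement := by
  intro φ ψ F₁ F₂ hφ hψ hψ0 hF₁ hF₂ hF₂0 h₁ h₂
  -- a point where `ψ` and `F₂` do not vanish
  have hne : ψ * F₂ ≠ 0 := fun h =>
    ((UpperHalfPlane.mul_eq_zero_iff hψ hF₂).1 h).elim hψ0 hF₂0
  obtain ⟨b, hb⟩ := Function.ne_iff.1 hne
  have hψb : ψ b ≠ 0 := fun h => hb (by simp [h])
  have hFb : F₂ b ≠ 0 := fun h => hb (by simp [h])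
  -- the functions on the open upper half plane
  have hU : IsOpen upperHalfPlaneSet := isOpen_upperHalfPlaneSet
  have dψ : DifferentiableOn ℂ (ψ ∘ ofComplex) upperHalfPlaneSet :=
    UpperHalfPlane.mdifferentiable_iff.1 hψ
  have d₁ : DifferentiableOn ℂ (F₁ ∘ ofComplex) upperHalfPlaneSet :=
    UpperHalfPlane.mdifferentiable_iff.1 hF₁
  have d₂ : DifferentiableOn ℂ (F₂ ∘ ofComplex) upperHalfPlaneSet :=
    UpperHalfPlane.mdifferentiable_iff.1 hF₂
  have hbU : (b : ℂ) ∈ upperHalfPlaneSet := b.2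
  -- a ball around `b` where `ψ` and `F₂` do not vanish
  have e1 : ∀ᶠ z in 𝓝 (b : ℂ), (ψ ∘ ofComplex) z ≠ 0 :=
    ((dψ.differentiableAt (hU.mem_nhds hbU)).continuousAt).eventually_ne
      (by rwa [comp_ofComplex_coe])
  have e2 : ∀ᶠ z in 𝓝 (b : ℂ), (F₂ ∘ ofComplex) z ≠ 0 :=
    ((d₂.differentiableAt (hU.mem_nhds hbU)).continuousAt).eventually_ne
      (by rwa [comp_ofComplex_coe])
  have e3 : ∀ᶠ z in 𝓝 (b : ℂ), z ∈ upperHalfPlaneSet := hU.mem_nhds hbU
  obtain ⟨ε, hε, hball⟩ := Metric.eventually_nhds_iff_ball.1 (e1.and (e2.and e3))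
  -- the quotient has derivative zero on the ball
  set g : ℂ → ℂ := fun z => (F₁ ∘ ofComplex) z / (F₂ ∘ ofComplex) z with hg
  have hgd : DifferentiableOn ℂ g (Metric.ball (b : ℂ) ε) := by
    intro z hz
    obtain ⟨-, hz2, hz3⟩ := hball z hz
    exact ((d₁.differentiableAt (hU.mem_nhds hz3)).div
      (d₂.differentiableAt (hU.mem_nhds hz3)) hz2).differentiableWithinAt
  have hg' : (Metric.ball (b : ℂ) ε).EqOn (deriv g) 0 := by
    intro z hz
    obtain ⟨hz1, hz2, hz3⟩ := hball z hz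
    have hd := deriv_div (d₁.differentiableAt (hU.mem_nhds hz3))
      (d₂.differentiableAt (hU.mem_nhds hz3)) hz2
    have hgz : deriv g z = deriv ((F₁ ∘ ofComplex) / (F₂ ∘ ofComplex)) z := rfl
    rw [hgz, hd, Pi.zero_apply, div_eq_zero_iff]
    left
    -- multiply by `ψ z ≠ 0`
    set z' : ℍ := ⟨z, hz3⟩ with hz'
    have c1 : (F₁ ∘ ofComplex) z = F₁ z' := comp_ofComplex_coe F₁ z'
    have c2 : (F₂ ∘ ofComplex) z = F₂ z' := comp_ofComplex_coe F₂ z'
    have cψ : (ψ ∘ ofComplex) z = ψ z' := comp_ofComplex_coe ψ z'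
    have k1 := h₁ z'
    have k2 := h₂ z'
    have hzc : ((z' : ℍ) : ℂ) = z := rfl
    rw [hzc] at k1 k2
    have hψz : ψ z' ≠ 0 := by rwa [← cψ]
    have : (deriv (F₁ ∘ ofComplex) z * (F₂ ∘ ofComplex) z
        - (F₁ ∘ ofComplex) z * deriv (F₂ ∘ ofComplex) z) * ψ z' = 0 := by
      rw [c1, c2]
      linear_combination F₂ z' * k1 - F₁ z' * k2
    exact (mul_eq_zero.1 this).resolve_right hψz
  have hconst : ∀ z ∈ Metric.ball (b : ℂ) ε, g z = g (b : ℂ) := fun z hz =>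
    Metric.isOpen_ball.is_const_of_deriv_eq_zero (convex_ball _ _).isPreconnected hgd hg' hz
      (Metric.mem_ball_self hε)
  -- the constant
  refine ⟨g (b : ℂ), ?_⟩
  -- identity theorem
  have a₁ : AnalyticOnNhd ℂ (F₁ ∘ ofComplex) upperHalfPlaneSet := d₁.analyticOnNhd hU
  have a₂ : AnalyticOnNhd ℂ (fun z => g (b : ℂ) * (F₂ ∘ ofComplex) z) upperHalfPlaneSet :=
    (d₂.const_mul _).analyticOnNhd hU
  have hev : (F₁ ∘ ofComplex) =ᶠ[𝓝 (b : ℂ)] fun z => g (b : ℂ) * (F₂ ∘ ofComplex) z := by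
    filter_upwards [Metric.ball_mem_nhds (b : ℂ) hε] with z hz
    obtain ⟨-, hz2, -⟩ := hball z hz
    have := hconst z hz
    rw [← this, hg]
    field_simp
  have hpre : IsPreconnected upperHalfPlaneSet :=
    (Complex.isConnected_of_upperHalfPlane subset_rfl (by grind)).isPreconnected
  have key := a₁.eqOn_of_preconnected_of_eventuallyEq a₂ hpre hbU hev
  intro z
  have := key z.2
  simp only [comp_ofComplex_coe] at this
  rw [← comp_ofComplex_coe F₁ z, ← comp_ofComplex_coe F₂ z]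
  exact key z.2

end Fermat.Agent.H4.MWDiv
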